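import Mathlib
import Fermat.Prelude.Def_FLTPrelim_FreyPackage
import Fermat.Prelude.Def_FLTPrelim_GaloisRep
import Fermat.Prelude.Def_FLTPrelim_Modularity
import Fermat.Prelude.Def_FLTPrelim_ModularRep
import Fermat.Prelude.Def_FLTPrelim_Ramification
import Fermat.Prelude.Def_FLTPrelim_CofixedLine
import Fermat.Agent.Lib.Frob.Statement

/-!
# S52 (3–5 switch) — FROZEN TOP-LEVEL INTERFACE (row-lead helper472)

`S52 ⇐ PartA ∧ Switch`  (`result_of_parts`, proved here, no `sorry`).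

* `PartA`  : an injective Galois-equivariant additive map `W[5] → W'[5]` forces
             `a_ℓ(W') ≡ a_ℓ(W) mod 5` at every prime `ℓ ≥ 7` good for both.
             (`PartA ⇐ Lib.Frob.FrobRelation`, see `partA_of_frobRelation` in `PartAGlue.lean`.)
* `Switch` : if `W` is semistable and `W[3]` is reducible, there is a semistable `W'` with the same
             reductions mod 2 and mod 3, `W'[3]` irreducible, and such a map `W[5] → W'[5]`.
-/

set_option autoImplicit false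

open WeierstrassCurve WeierstrassCurve.Affine WeierstrassCurve.Affine.Point

namespace Fermat.Agent.S52

open Fermat.Agent.Lib.Frob (Qb Pts)

/-- The `n`-torsion Galois module of `W` over `ℚ̄` (the Prelude type). -/
abbrev Tors (W : WeierstrassCurve ℤ) (n : ℕ) : Type :=
  Submodule.torsionBy ℤ (Pts W) n

/-- An injective, Galois-equivariant additive map `W[5](ℚ̄) → W'[5](ℚ̄)`. -/
def FiveCongruent (W W' : WeierstrassCurve ℤ) : Prop :=
  ∃ θ : Tors W 5 →+ Tors W' 5, Function.Injective θ ∧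
    ∀ (σ : Qb ≃ₐ[ℚ] Qb) (P : Tors W 5), θ (σ • P) = σ • θ P

/-- **PART A** (frozen). -/
def PartA : Prop :=
  ∀ (W W' : WeierstrassCurve ℤ), W.Δ ≠ 0 → FiveCongruent W W' →
    ∀ ℓ : ℕ, ℓ.Prime → 7 ≤ ℓ → W.IsGoodPrimeFor ℓ → W'.IsGoodPrimeFor ℓ →
      (5 : ℤ) ∣ (W'.apOfModel ℓ - W.apOfModel ℓ)

/-- **PART B** (frozen). -/
def Switch : Prop :=
  ∀ (W : WeierstrassCurve ℤ), W.Δ ≠ 0 → W.IsSemistableModel → W.ModRepIsIrreducible 5 →
    ¬ W.ModRepIsIrreducible 3 →
    ∃ W' : WeierstrassCurve ℤ, W'.Δ ≠ 0 ∧ W'.IsSemistableModel ∧ W'.ModRepIsIrreducible 3 ∧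
      W'.reductionMod 2 = W.reductionMod 2 ∧ W'.reductionMod 3 = W.reductionMod 3 ∧
      FiveCongruent W W'

/-- The frozen statement S52 as a `Prop` (definitionally the type of `Fermat.Agent.S52.result`). -/
def Goal : Prop :=
  ∀ (W : WeierstrassCurve ℤ) (_ : W.Δ ≠ 0) (_ : W.IsSemistableModel)
    (_ : W.ModRepIsIrreducible 5),
    ∃ W' : WeierstrassCurve ℤ, W'.Δ ≠ 0 ∧ W'.IsSemistableModel ∧ W'.ModRepIsIrreducible 3 ∧
      ∀ ℓ : ℕ, ℓ.Prime → W.IsGoodPrimeFor ℓ → W'.IsGoodPrimeFor ℓ → ℓ ≠ 5 →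
        (5 : ℤ) ∣ (W'.apOfModel ℓ - W.apOfModel ℓ)

theorem result_of_parts (hA : PartA) (hB : Switch) : Goal := by
  intro W hΔ hW h5
  by_cases h3 : W.ModRepIsIrreducible 3
  · exact ⟨W, hΔ, hW, h3, fun ℓ _ _ _ _ => by simp⟩
  · obtain ⟨W', hΔ', hW', h3', h2r, h3r, hθ⟩ := hB W hΔ hW h5 h3
    refine ⟨W', hΔ', hW', h3', ?_⟩
    intro ℓ hℓ hg hg' hℓ5
    by_cases h7 : 7 ≤ ℓ
    · exact hA W W' hΔ hθ ℓ hℓ h7 hg hg'
    · have hlt : ℓ < 7 := not_le.mp h7
      have h2 := hℓ.two_le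
      have hcases : ℓ = 2 ∨ ℓ = 3 := by
        interval_cases ℓ
        · exact Or.inl rfl
        · exact Or.inr rfl
        · exact absurd hℓ (by decide)
        · exact absurd rfl hℓ5
        · exact absurd hℓ (by decide)
      rcases hcases with rfl | rfl
      · have : W'.apOfModel 2 = W.apOfModel 2 := by
          unfold WeierstrassCurve.apOfModel; rw [h2r]
        simp [this]
      · have : W'.apOfModel 3 = W.apOfModel 3 := by
          unfold WeierstrassCurve.apOfModel; rw [h3r]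
        simp [this]

end Fermat.Agent.S52
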