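import Fermat.Agent.S52.Top
import Fermat.Agent.S54.FrobExists
import Fermat.Agent.S51.FiveTorsion

/-!
# `PartA ⇐ Lib.Frob.FrobRelation`  (row-lead glue, no `sorry`)
-/

set_option autoImplicit false

open WeierstrassCurve WeierstrassCurve.Affine WeierstrassCurve.Affine.Point

namespace Fermat.Agent.S52

open Fermat.Agent.Lib.Frob (Qb Pts FrobRelation)

/-- In an additive group, if `5 • x = 0` and `c • x = 0` with `5 ∤ c`, then `x = 0`. -/
theorem eq_zero_of_five_zsmul {G : Type*} [AddCommGroup G] {x : G} (h5 : (5 : ℤ) • x = 0)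
    {c : ℤ} (hc : c • x = 0) (h : ¬ (5 : ℤ) ∣ c) : x = 0 := by
  have hcop : IsCoprime (5 : ℤ) c := by
    have hp : Prime (5 : ℤ) := by norm_num
    exact (Prime.coprime_iff_not_dvd hp).mpr h
  obtain ⟨u, v, huv⟩ := hcop
  have : (u * 5 + v * c) • x = 0 := by
    rw [add_smul, mul_smul, mul_smul, h5, hc, smul_zero, smul_zero, add_zero]
  rw [huv, one_smul] at this
  exact this

theorem coe_galois_smul_tors (W : WeierstrassCurve ℤ) (n : ℕ) (σ : Qb ≃ₐ[ℚ] Qb)
    (P : Tors W n) : ((σ • P : Tors W n) : Pts W) = σ • (P : Pts W) := rfl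

theorem partA_of_frobRelation (hF : FrobRelation) : PartA := by
  intro W W' hΔ hcong ℓ hℓ h7 hg hg'
  obtain ⟨θ, hinj, hθ⟩ := hcong
  obtain ⟨A, σ, hA, hσ⟩ := Fermat.Agent.S54.exists_frobenius ℓ hℓ
  have h5ℓ : 5 ≤ ℓ := by omega
  have hℓ5 : ¬ ℓ ∣ 5 := by
    intro h
    have := Nat.le_of_dvd (by norm_num) h
    omega
  -- a point of order 5 on `W`
  have hΔQ : ((W.map (Int.castRingHom ℚ))⁄Qb).Δ ≠ 0 := by
    simp only [WeierstrassCurve.baseChange, WeierstrassCurve.map_Δ]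
    simpa using hΔ
  haveI : ((W.map (Int.castRingHom ℚ))⁄Qb).IsElliptic := ⟨isUnit_iff_ne_zero.mpr hΔQ⟩
  obtain ⟨P0, hP0, h5P0⟩ :=
    Fermat.Agent.S51.Five.exists_order5 (K := Qb) ((W.map (Int.castRingHom ℚ))⁄Qb)
  have hmem : P0 ∈ Submodule.torsionBy ℤ (Pts W) (5 : ℕ) := by
    rw [Submodule.mem_torsionBy_iff, ← h5P0]
    exact natCast_zsmul P0 5
  set P : Tors W 5 := ⟨P0, hmem⟩ with hP
  have hPne : P ≠ 0 := fun h => hP0 (congrArg Subtype.val h)
  -- relation on `W`
  have r1 : σ • σ • P - W.apOfModel ℓ • σ • P + (ℓ : ℤ) • P = 0 := by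
    apply Subtype.ext
    simp only [Submodule.coe_add, Submodule.coe_sub, Submodule.coe_smul_of_tower,
      coe_galois_smul_tors, ZeroMemClass.coe_zero]
    exact hF W ℓ hℓ h5ℓ hg A σ hA hσ 5 (by norm_num) hℓ5 P0 h5P0
  -- transport by θ
  set Q : Tors W' 5 := θ P with hQ
  have hQne : Q ≠ 0 := by
    intro h
    apply hPne
    apply hinj
    rw [_root_.map_zero]; exact h
  have r1' : σ • σ • Q - W.apOfModel ℓ • σ • Q + (ℓ : ℤ) • Q = 0 := by
    have := congrArg θ r1
    rw [_root_.map_zero, map_add, map_sub, map_zsmul, map_zsmul, hθ, hθ] at this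
    exact this
  -- relation on `W'`
  have h5Q : (5 : ℕ) • (Q : Pts W') = 0 := by
    have := Q.2
    rw [Submodule.mem_torsionBy_iff] at this
    rw [← this]
    exact (natCast_zsmul (Q : Pts W') 5).symm
  have r2 : σ • σ • Q - W'.apOfModel ℓ • σ • Q + (ℓ : ℤ) • Q = 0 := by
    apply Subtype.ext
    simp only [Submodule.coe_add, Submodule.coe_sub, Submodule.coe_smul_of_tower,
      coe_galois_smul_tors, ZeroMemClass.coe_zero]
    exact hF W' ℓ hℓ h5ℓ hg' A σ hA hσ 5 (by norm_num) hℓ5 (Q : Pts W') h5Q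
  -- subtract
  have hdiff : (W'.apOfModel ℓ - W.apOfModel ℓ) • (σ • Q) = 0 := by
    have := congrArg₂ (· - ·) r1' r2
    simp only [sub_zero] at this
    rw [sub_smul]
    rw [← this]
    abel
  have hσQ : σ • Q ≠ 0 := by
    intro h
    apply hQne
    have := congrArg (fun x => σ⁻¹ • x) h
    simpa using this
  have h5σQ : (5 : ℤ) • (σ • Q) = 0 := by
    apply Subtype.ext
    have := (σ • Q).2
    rw [Submodule.mem_torsionBy_iff] at this
    simpa using this
  by_contra hndvd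
  exact hσQ (eq_zero_of_five_zsmul h5σQ hdiff hndvd)

end Fermat.Agent.S52
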